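import Fermat.Agent.LT.T2.H197.S2Rot

/-!
# Row LT, tower T2, sub-leaf T2.27.31 `SubS2RotT291` (helper879): the core, OFF-MAIN

The `T`-form of T2.07.31: invariance of `sin β dβ dα` under the rotations `k₀ ∈ SU(2)` for a
function `ψ` which is right invariant under the diagonal torus `{rotZ γ}` ONLY.

Imports: the core of T2.07.31 by helper197 (byte-identical copies of `LT/T2/H197/S2Core.lean`,
`LT/T2/H197/S2Rot.lean`, helper197@95fdc5e47): `euler_eq_plane197` (Euler angles = affine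
coordinate of the Riemann sphere), `moebius197` (Möbius invariance of `4 dA / (1 + |z|²)²`),
`euler_factor197`, `coset_factor_aux197`.  New here: for `k₀ ∈ SU(2)` the diagonal factor of
`coset_factor_aux197` is `rotZ γ` (`coset_factorT879`).
-/

set_option autoImplicit false

open MeasureTheory Complex Set
open Fermat.Agent.LT.H556.A0
open Fermat.Agent.LT.T2.H197
open scoped ComplexConjugate Matrix

noncomputable section

namespace Fermat.Agent.LT.T2.H879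

theorem torus_zero879 : torus 0 = 1 := by
  rw [torus, Matrix.one_fin_two]
  refine mat_ext197 ?_ rfl rfl ?_ <;> simp

theorem mz_zero879 (z : ℂ) : mz197 0 z = nz197 z := by
  rw [← nz_mul_torus197, torus_zero879, Matrix.mul_one]

/-- Every complex number of modulus one is `exp (i γ / 2)`. -/
theorem exists_rotZ879 (u : ℂ) (hu : u * conj u = 1) :
    ∃ γ : ℝ, (!![u, 0; 0, conj u] : Matrix (Fin 2) (Fin 2) ℂ) = rotZ γ := by
  have hn : ‖u‖ = 1 := by
    have h1 : Complex.normSq u = 1 := by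
      apply Complex.ofReal_injective
      rw [← Complex.mul_conj]
      exact_mod_cast hu
    rw [Complex.normSq_eq_norm_sq] at h1
    have h0 : (0 : ℝ) ≤ ‖u‖ := norm_nonneg u
    nlinarith
  have hexp : Complex.exp (Complex.I * (((2 * Complex.arg u) / 2 : ℝ) : ℂ)) = u := by
    have h := Complex.norm_mul_exp_arg_mul_I u
    rw [hn, Complex.ofReal_one, one_mul] at h
    have h2 : Complex.I * (((2 * Complex.arg u) / 2 : ℝ) : ℂ) = (Complex.arg u : ℂ) * Complex.I := by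
      push_cast
      ring
    rw [h2]
    exact h
  refine ⟨2 * Complex.arg u, ?_⟩
  rw [rotZ]
  refine mat_ext197 hexp.symm rfl rfl ?_
  have hc : conj (Complex.exp (Complex.I * (((2 * Complex.arg u) / 2 : ℝ) : ℂ)))
      = Complex.exp (-(Complex.I * (((2 * Complex.arg u) / 2 : ℝ) : ℂ))) := by
    rw [← Complex.exp_conj]
    congr 1
    simp only [map_mul, Complex.conj_I, Complex.conj_ofReal]
    ring
  rw [← hc, hexp]

/-- The coset factorisation for `k ∈ SU(2)`: the diagonal factor lies in the torus `{rotZ γ}`. -/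
theorem coset_factorT879 (k : Matrix (Fin 2) (Fin 2) ℂ) (hk : k * k.conjTranspose = 1)
    (hdet : k.det = 1) (z : ℂ) (hu : k 0 0 + k 0 1 * z ≠ 0) :
    ∃ γ : ℝ, k * mz197 0 z
      = mz197 0 ((k 1 0 + k 1 1 * z) / (k 0 0 + k 0 1 * z)) * rotZ γ := by
  obtain ⟨h1, h2, h3, h4⟩ := unitary_adj197 k hk
  have hcw := cz_moebius197 k hk z hu
  have haux := coset_factor_aux197 0 (k 0 0) (k 0 1) (k 1 0) (k 1 1) z h1 h2 h3 h4 hu hcw
  rw [← Matrix.eta_fin_two k] at haux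
  have hd : k 0 0 * k 1 1 - k 0 1 * k 1 0 = 1 := by
    rw [← hdet, Matrix.det_fin_two]
  have hx := unit_aux197 _ hu
  obtain ⟨γ, hγ⟩ := exists_rotZ879 _ hx
  refine ⟨γ, ?_⟩
  rw [haux, ← hγ]
  congr 1
  refine mat_ext197 rfl rfl rfl ?_
  rw [hd, one_mul]
  simp only [map_mul, map_add, Complex.conj_ofReal]

theorem boundedT879 (ψ : Matrix (Fin 2) (Fin 2) ℂ → ℂ) (hψ : ContinuousOn ψ {m | m.det ≠ 0}) :
    ∃ C : ℝ, ∀ u : Matrix (Fin 2) (Fin 2) ℂ, u * u.conjTranspose = 1 → ‖ψ u‖ ≤ C := by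
  obtain ⟨C, hC⟩ := bounded_aux197 ψ hψ 0
  refine ⟨C, fun u hu => ?_⟩
  have := hC u hu
  rwa [torus_zero879, Matrix.mul_one] at this

/-- The Euler-angle integral of a right `T`-invariant function, in the affine coordinate. -/
theorem euler_to_planeT879 (ψ : Matrix (Fin 2) (Fin 2) ℂ → ℂ)
    (hψ : ContinuousOn ψ {m | m.det ≠ 0})
    (hinv : ∀ (m : Matrix (Fin 2) (Fin 2) ℂ) (γ : ℝ), ψ (m * rotZ γ) = ψ m)
    (k₀ : Matrix (Fin 2) (Fin 2) ℂ) (hk₀ : k₀ * k₀.conjTranspose = 1) :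
    (∫ α in (0 : ℝ)..(2 * Real.pi), ∫ β in (0 : ℝ)..Real.pi,
        ψ (k₀ * (rotZ α * rotY β)) * ((Real.sin β : ℝ) : ℂ))
      = ∫ z, ψ (k₀ * mz197 0 z) * (rho197 z : ℂ) := by
  have hFc : Continuous fun z : ℂ => ψ (k₀ * mz197 0 z) := by
    refine hψ.comp_continuous (continuous_const.matrix_mul (continuous_mz197 0)) fun z => ?_
    show (k₀ * mz197 0 z).det ≠ 0
    rw [Matrix.det_mul, det_mz197, mul_one]
    exact det_ne_zero_of_unitary197 k₀ hk₀
  obtain ⟨C, hC⟩ := boundedT879 ψ hψ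
  have hFb : ∀ z : ℂ, ‖ψ (k₀ * mz197 0 z)‖ ≤ C := by
    intro z
    have := hC (k₀ * nz197 z) (unitary_mul197 k₀ (nz197 z) hk₀ (nz_unitary197 z))
    rwa [← mz_zero879] at this
  rw [← euler_eq_plane197 (fun z : ℂ => ψ (k₀ * mz197 0 z)) hFc C hFb]
  refine intervalIntegral.integral_congr fun α _ => ?_
  refine intervalIntegral.integral_congr fun β hβ => ?_
  rw [Set.uIcc_of_le Real.pi_pos.le] at hβ
  show ψ (k₀ * (rotZ α * rotY β)) * ((Real.sin β : ℝ) : ℂ)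
    = ψ (k₀ * mz197 0 (Complex.exp (-(Complex.I * (α : ℂ))) * ((Real.tan (β / 2) : ℝ) : ℂ)))
      * ((Real.sin β : ℝ) : ℂ)
  rcases eq_or_lt_of_le hβ.2 with h | h
  · rw [h, Real.sin_pi, Complex.ofReal_zero, mul_zero, mul_zero]
  · have hcos : 0 < Real.cos (β / 2) :=
      Real.cos_pos_of_mem_Ioo ⟨by linarith [hβ.1, Real.pi_pos], by linarith⟩
    have he := euler_factor197 0 α β hcos
    rw [torus_zero879, Matrix.mul_one] at he
    rw [he, ← Matrix.mul_assoc, hinv]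

theorem plane_invariantT879 (ψ : Matrix (Fin 2) (Fin 2) ℂ → ℂ)
    (hinv : ∀ (m : Matrix (Fin 2) (Fin 2) ℂ) (γ : ℝ), ψ (m * rotZ γ) = ψ m)
    (k₀ : Matrix (Fin 2) (Fin 2) ℂ) (hk₀ : k₀ * k₀.conjTranspose = 1) (hdet : k₀.det = 1) :
    ∫ z, ψ (k₀ * mz197 0 z) * (rho197 z : ℂ) = ∫ z, ψ (mz197 0 z) * (rho197 z : ℂ) := by
  rw [← moebius197 (fun w => ψ (mz197 0 w)) (k₀ 0 0) (k₀ 0 1) (k₀ 1 0) (k₀ 1 1)
    (unitary_det_normSq197 k₀ hk₀) (unitary_normSq197 k₀ hk₀)]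
  refine integral_congr_ae ?_
  have hS : ({z : ℂ | k₀ 0 0 + k₀ 0 1 * z = 0} : Set ℂ).Subsingleton := by
    intro z₁ h₁ z₂ h₂
    by_contra hne
    have h₁' : k₀ 0 0 + k₀ 0 1 * z₁ = 0 := h₁
    have h₂' : k₀ 0 0 + k₀ 0 1 * z₂ = 0 := h₂
    have hq : k₀ 0 1 * (z₁ - z₂) = 0 := by linear_combination h₁' - h₂'
    have hq0 : k₀ 0 1 = 0 := by
      rcases mul_eq_zero.mp hq with h | h
      · exact h
      · exact absurd (sub_eq_zero.mp h) hne
    have hp0 : k₀ 0 0 = 0 := by rw [hq0, zero_mul, add_zero] at h₁'; exact h₁'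
    have := (unitary_rows197 k₀ hk₀).1
    rw [hp0, hq0] at this
    simp at this
  have h0 : volume ({z : ℂ | k₀ 0 0 + k₀ 0 1 * z = 0} : Set ℂ) = 0 := hS.measure_zero volume
  filter_upwards [measure_eq_zero_iff_ae_notMem.mp h0] with z hz
  obtain ⟨γ, hfac⟩ := coset_factorT879 k₀ hk₀ hdet z hz
  show ψ (k₀ * mz197 0 z) * (rho197 z : ℂ)
    = ψ (mz197 0 ((k₀ 1 0 + k₀ 1 1 * z) / (k₀ 0 0 + k₀ 0 1 * z))) * (rho197 z : ℂ)
  rw [hfac, hinv]

/-- **T2.27.31, explicit statement**: invariance of `sin β dβ dα` under `SU(2)`, for `ψ` right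
invariant under the diagonal torus. -/
theorem subS2RotT_stmt879 (ψ : Matrix (Fin 2) (Fin 2) ℂ → ℂ)
    (hψ : ContinuousOn ψ {m | m.det ≠ 0})
    (hinv : ∀ (m : Matrix (Fin 2) (Fin 2) ℂ) (γ : ℝ), ψ (m * rotZ γ) = ψ m)
    (k₀ : Matrix (Fin 2) (Fin 2) ℂ) (hk₀ : k₀ * k₀.conjTranspose = 1) (hdet : k₀.det = 1) :
    (∫ α in (0 : ℝ)..(2 * Real.pi), ∫ β in (0 : ℝ)..Real.pi,
        ψ (k₀ * (rotZ α * rotY β)) * ((Real.sin β : ℝ) : ℂ))
      = ∫ α in (0 : ℝ)..(2 * Real.pi), ∫ β in (0 : ℝ)..Real.pi,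
        ψ (rotZ α * rotY β) * ((Real.sin β : ℝ) : ℂ) := by
  rw [euler_to_planeT879 ψ hψ hinv k₀ hk₀, plane_invariantT879 ψ hinv k₀ hk₀ hdet]
  have h1 := euler_to_planeT879 ψ hψ hinv 1 (by simp)
  simp only [Matrix.one_mul] at h1
  exact h1.symm

end Fermat.Agent.LT.T2.H879
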