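import Fermat.Agent.LT.T2.H291.OpsSpecT
import Fermat.Agent.LT.T2.H879.S2RotT

/-!
# Row LT, tower T2, sub-leaf T2.27.31 `SubS2RotT291` (helper879): the leaf, VERBATIM

Prop of `LT/T2/H291/OpsSpecT.lean` (helper291@22c6ecc98, sha256 c8359c85).
-/

set_option autoImplicit false

namespace Fermat.Agent.LT.T2.H879

/-- **THE SUB-LEAF T2.27.31**, verbatim. -/
theorem subS2RotT879 : Fermat.Agent.LT.T2.H291.SubS2RotT291 :=
  fun ψ hψ hinv k₀ hk₀ hdet => subS2RotT_stmt879 ψ hψ hinv k₀ hk₀ hdet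

end Fermat.Agent.LT.T2.H879
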