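import Mathlib
import Fermat.Agent.LT.H556.A0
import Fermat.Agent.LT.T1.Spec
import Fermat.Agent.LT.T2.Spec
import Fermat.Agent.LT.T2.H429.OpsSpec

/-!
# Row LT, tower T2, sub-leaf T2.07.19 `SubCommSphereCircle429` (helper879), OFF-MAIN

A sphere mean (complex place `w`) and a circle mean (real place `w'`) commute on the cusp
functions.  Proof: `w ≠ w'`, so the parametrising elements commute (`comm_of_local879`), and the
three interval integrals may be interchanged (Fubini for continuous integrands on a box).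

Input: the auxiliary sub-leaf T2.07.30 `SubLocCont429` (continuity of the parametrisations).
Vocabulary: byte-identical copies of `LT/H556/A0.lean`, `LT/T1/Spec.lean`, `LT/T2/Spec.lean`,
`LT/T2/H429/OpsSpec.lean` (helper429@dcf706097).
-/

set_option autoImplicit false

open IsDedekindDomain NumberField MeasureTheory
open Fermat.Agent.LT.H556.A0
open Fermat.Agent.LT.T2
open Fermat.Agent.LT.T2.H429

noncomputable section

namespace Fermat.Agent.LT.T2.H879

variable {K : Type} [Field K] [NumberField K]

/-! ## 1. Elements supported at different infinite places commute -/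

/-- Two adeles with the same components are equal. -/
theorem adl_ext879 {x y : Adl K} (hinf : ∀ u : InfinitePlace K, x.1 u = y.1 u)
    (hfin : ∀ v : HeightOneSpectrum (𝓞 K), x.2 v = y.2 v) : x = y := by
  refine Prod.ext ?_ ?_
  · funext u
    exact hinf u
  · exact RestrictedProduct.ext _ _ hfin

/-- The entries of a product at an infinite place. -/
theorem mul_inf879 (a b : G K) (u : InfinitePlace K) (i j : Fin 2) :
    (((a * b : G K) : Matrix (Fin 2) (Fin 2) (Adl K)) i j).1 u
      = ((a : Matrix (Fin 2) (Fin 2) (Adl K)) i 0).1 u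
          * ((b : Matrix (Fin 2) (Fin 2) (Adl K)) 0 j).1 u
        + ((a : Matrix (Fin 2) (Fin 2) (Adl K)) i 1).1 u
          * ((b : Matrix (Fin 2) (Fin 2) (Adl K)) 1 j).1 u := by
  rw [Units.val_mul, Matrix.mul_apply, Fin.sum_univ_two]
  rfl

/-- The entries of a product at a finite place. -/
theorem mul_fin879 (a b : G K) (v : HeightOneSpectrum (𝓞 K)) (i j : Fin 2) :
    (((a * b : G K) : Matrix (Fin 2) (Fin 2) (Adl K)) i j).2 v
      = ((a : Matrix (Fin 2) (Fin 2) (Adl K)) i 0).2 v
          * ((b : Matrix (Fin 2) (Fin 2) (Adl K)) 0 j).2 v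
        + ((a : Matrix (Fin 2) (Fin 2) (Adl K)) i 1).2 v
          * ((b : Matrix (Fin 2) (Fin 2) (Adl K)) 1 j).2 v := by
  rw [Units.val_mul, Matrix.mul_apply, Fin.sum_univ_two]
  rfl

/-- If `a` is trivial at the infinite place `u`, then `a * b` and `b * a` have the components of
`b` at `u`. -/
theorem mul_inf_of_triv_left879 {a : G K} {u : InfinitePlace K} (ha : TrivAtInf u a) (b : G K)
    (i j : Fin 2) :
    (((a * b : G K) : Matrix (Fin 2) (Fin 2) (Adl K)) i j).1 u
      = ((b : Matrix (Fin 2) (Fin 2) (Adl K)) i j).1 u := by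
  rw [mul_inf879, ha i 0, ha i 1]
  fin_cases i <;> simp [Matrix.one_apply]

theorem mul_inf_of_triv_right879 {a : G K} {u : InfinitePlace K} (ha : TrivAtInf u a) (b : G K)
    (i j : Fin 2) :
    (((b * a : G K) : Matrix (Fin 2) (Fin 2) (Adl K)) i j).1 u
      = ((b : Matrix (Fin 2) (Fin 2) (Adl K)) i j).1 u := by
  rw [mul_inf879, ha 0 j, ha 1 j]
  fin_cases j <;> simp [Matrix.one_apply]

theorem trivAtFin_apply879 {a : G K} {v : HeightOneSpectrum (𝓞 K)} (ha : TrivAtFin v a)
    (i j : Fin 2) :
    ((a : Matrix (Fin 2) (Fin 2) (Adl K)) i j).2 v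
      = (1 : Matrix (Fin 2) (Fin 2) (v.adicCompletion K)) i j := by
  have h := congrFun (congrFun ha i) j
  exact h

theorem mul_fin_of_triv_left879 {a : G K} {v : HeightOneSpectrum (𝓞 K)} (ha : TrivAtFin v a)
    (b : G K) (i j : Fin 2) :
    (((a * b : G K) : Matrix (Fin 2) (Fin 2) (Adl K)) i j).2 v
      = ((b : Matrix (Fin 2) (Fin 2) (Adl K)) i j).2 v := by
  rw [mul_fin879, trivAtFin_apply879 ha i 0, trivAtFin_apply879 ha i 1]
  fin_cases i <;> simp [Matrix.one_apply]

theorem mul_fin_of_triv_right879 {a : G K} {v : HeightOneSpectrum (𝓞 K)} (ha : TrivAtFin v a)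
    (b : G K) (i j : Fin 2) :
    (((b * a : G K) : Matrix (Fin 2) (Fin 2) (Adl K)) i j).2 v
      = ((b : Matrix (Fin 2) (Fin 2) (Adl K)) i j).2 v := by
  rw [mul_fin879, trivAtFin_apply879 ha 0 j, trivAtFin_apply879 ha 1 j]
  fin_cases j <;> simp [Matrix.one_apply]

/-- **Elements supported at two different infinite places commute.** -/
theorem comm_of_local879 {w w' : InfinitePlace K} (hne : w ≠ w') {a b : G K}
    (ha : IsLocalAtInf w a) (hb : IsLocalAtInf w' b) : a * b = b * a := by
  apply Units.ext
  funext i j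
  apply adl_ext879
  · intro u
    by_cases hu : u = w
    · have hb' : TrivAtInf u b := hb.1 u (by rw [hu]; exact hne)
      rw [mul_inf_of_triv_right879 hb' a i j, mul_inf_of_triv_left879 hb' a i j]
    · have ha' : TrivAtInf u a := ha.1 u hu
      rw [mul_inf_of_triv_left879 ha' b i j, mul_inf_of_triv_right879 ha' b i j]
  · intro v
    rw [mul_fin_of_triv_left879 (ha.2 v) b i j, mul_fin_of_triv_right879 (ha.2 v) b i j]

/-! ## 2. Continuity of the parametrisations -/

theorem continuous_rotZ_entry879 (i j : Fin 2) : Continuous fun α : ℝ => rotZ α i j := by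
  fin_cases i <;> fin_cases j <;> simp [rotZ] <;> fun_prop

theorem continuous_rotY_entry879 (i j : Fin 2) : Continuous fun β : ℝ => rotY β i j := by
  fin_cases i <;> fin_cases j <;> simp [rotY] <;> fun_prop

/-- The parametrisation of a sphere is continuous. -/
theorem continuous_sphere879 (hLC : SubLocCont429 K) {w : InfinitePlace K} {d : ℝ}
    {Y : ℝ → ℝ → G K} (hY : IsSphereAt w d Y) :
    Continuous fun p : ℝ × ℝ => Y p.1 p.2 := by
  refine hLC w (ℝ × ℝ) (fun p => Y p.1 p.2) (fun p => (hY p.1 p.2).1) ?_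
  intro i j
  have h : (fun p : ℝ × ℝ => infComp w (Y p.1 p.2) i j)
      = fun p : ℝ × ℝ => (rotZ p.1 * rotY p.2 * torus d) i j := by
    funext p
    rw [(hY p.1 p.2).2]
  rw [h]
  simp only [Matrix.mul_apply, Fin.sum_univ_two]
  have hZ := fun i j => (continuous_rotZ_entry879 i j).comp (continuous_fst : Continuous fun p : ℝ × ℝ => p.1)
  have hYY := fun i j => (continuous_rotY_entry879 i j).comp (continuous_snd : Continuous fun p : ℝ × ℝ => p.2)
  simp only [Function.comp_def] at hZ hYY
  fun_prop

/-- The parametrisation of a circle is continuous. -/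
theorem continuous_circle879 (hLC : SubLocCont429 K) {w : InfinitePlace K} {t : ℝ}
    {Y : ℝ → G K} (hY : IsCircleAt w t Y) : Continuous Y := by
  refine hLC w ℝ Y (fun θ => (hY θ).1) ?_
  intro i j
  have h : (fun θ : ℝ => infComp w (Y θ) i j) = fun θ : ℝ => (rotY θ * torus t) i j := by
    funext θ
    rw [(hY θ).2]
  rw [h]
  simp only [Matrix.mul_apply, Fin.sum_univ_two]
  have hYY := fun i j => continuous_rotY_entry879 i j
  fun_prop

/-! ## 3. Fubini on a box -/

/-- Interchange of three interval integrals for a continuous integrand with a weight in the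
middle variable. -/
theorem swap3_879 {F : ℝ → ℝ → ℝ → ℂ}
    (hF : Continuous fun p : ℝ × ℝ × ℝ => F p.1 p.2.1 p.2.2) {s : ℝ → ℂ} (hs : Continuous s)
    (a b c d e f : ℝ) :
    (∫ α in a..b, ∫ β in c..d, (∫ θ in e..f, F α β θ) * s β)
      = ∫ θ in e..f, ∫ α in a..b, ∫ β in c..d, F α β θ * s β := by
  -- the integrand `G α β θ = F α β θ * s β`
  have hG : Continuous fun p : ℝ × ℝ × ℝ => F p.1 p.2.1 p.2.2 * s p.2.1 :=
    hF.mul (hs.comp (continuous_fst.comp continuous_snd))
  -- step 1: the weight goes inside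
  have h1 : ∀ α β : ℝ, (∫ θ in e..f, F α β θ) * s β = ∫ θ in e..f, F α β θ * s β := by
    intro α β
    exact (intervalIntegral.integral_mul_const (s β) (fun θ => F α β θ)).symm
  simp only [h1]
  -- step 2: interchange of the two inner integrals
  have h2 : ∀ α : ℝ, (∫ β in c..d, ∫ θ in e..f, F α β θ * s β)
      = ∫ θ in e..f, ∫ β in c..d, F α β θ * s β := by
    intro α
    apply intervalIntegral_intervalIntegral_swap
    have hc : Continuous (Function.uncurry fun β θ : ℝ => F α β θ * s β) := by
      have : (Function.uncurry fun β θ : ℝ => F α β θ * s β)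
          = (fun p : ℝ × ℝ × ℝ => F p.1 p.2.1 p.2.2 * s p.2.1) ∘ fun q : ℝ × ℝ => (α, q.1, q.2) := by
        funext q
        rfl
      rw [this]
      exact hG.comp (by fun_prop)
    exact (hc.continuousOn.integrableOn_compact
      (isCompact_uIcc.prod isCompact_uIcc)).mono_set
      (Set.prod_mono Set.uIoc_subset_uIcc Set.uIoc_subset_uIcc)
  simp only [h2]
  -- step 3: interchange of the two outer integrals
  apply intervalIntegral_intervalIntegral_swap
  have hc : Continuous (Function.uncurry fun α θ : ℝ => ∫ β in c..d, F α β θ * s β) := by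
    have hpar := intervalIntegral.continuous_parametric_intervalIntegral_of_continuous'
      (μ := volume) (f := fun (q : ℝ × ℝ) (β : ℝ) => F q.1 β q.2 * s β) (by
        have : (Function.uncurry fun (q : ℝ × ℝ) (β : ℝ) => F q.1 β q.2 * s β)
            = (fun p : ℝ × ℝ × ℝ => F p.1 p.2.1 p.2.2 * s p.2.1)
                ∘ fun r : (ℝ × ℝ) × ℝ => (r.1.1, r.2, r.1.2) := by
          funext r
          rfl
        rw [this]
        exact hG.comp (by fun_prop)) c d
    exact hpar
  exact (hc.continuousOn.integrableOn_compact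
    (isCompact_uIcc.prod isCompact_uIcc)).mono_set
    (Set.prod_mono Set.uIoc_subset_uIcc Set.uIoc_subset_uIcc)

/-! ## 4. The sub-leaf -/

/-- **T2.07.19** from T2.07.30: a sphere mean and a circle mean commute on the cusp
functions. -/
theorem subCommSphereCircle_of_locCont879 (hLC : SubLocCont429 K) :
    SubCommSphereCircle429 K := by
  intro 𝔫 _ w hw d _ Y hY w' hw' t _ Y' hY' φ hφ
  have hne : w ≠ w' := by
    rintro rfl
    exact (InfinitePlace.not_isReal_iff_isComplex.mpr hw) hw'
  have hcY : Continuous fun p : ℝ × ℝ => Y p.1 p.2 := continuous_sphere879 hLC hY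
  have hcY' : Continuous Y' := continuous_circle879 hLC hY'
  funext g
  show (∫ α in (0 : ℝ)..(2 * Real.pi), ∫ β in (0 : ℝ)..Real.pi,
        circleMean Y' φ (g * Y α β) * ((Real.sin β : ℝ) : ℂ))
      = ∫ θ in (0 : ℝ)..(2 * Real.pi), sphereMean Y φ (g * Y' θ)
  simp only [circleMean, sphereMean]
  have hcomm : ∀ α β θ : ℝ, g * Y' θ * Y α β = g * Y α β * Y' θ := by
    intro α β θ
    rw [mul_assoc, mul_assoc, comm_of_local879 hne (hY α β).1 (hY' θ).1]
  simp only [hcomm]
  refine swap3_879 (F := fun α β θ => φ (g * Y α β * Y' θ)) ?_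
    (s := fun β => ((Real.sin β : ℝ) : ℂ)) ?_ _ _ _ _ _ _
  · refine hφ.cont.comp ?_
    have h1 : Continuous fun p : ℝ × ℝ × ℝ => Y p.1 p.2.1 :=
      hcY.comp (continuous_fst.prodMk (continuous_fst.comp continuous_snd))
    have h2 : Continuous fun p : ℝ × ℝ × ℝ => Y' p.2.2 :=
      hcY'.comp (continuous_snd.comp continuous_snd)
    exact (continuous_const.mul h1).mul h2
  · fun_prop

end Fermat.Agent.LT.T2.H879
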