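import Mathlib
import Fermat.Agent.LT.H129.Cartan
import Fermat.Agent.LT.H129.HeckeExists

/-!
# Row LT, tower T2, sub-leaf T2.10.15 `HeckeStripC` (helper879): LOCAL ALGEBRA, OFF-MAIN

Elementary divisors of integral matrices of `GL₂(K_v)` whose determinant has valuation
`exp (-1)` or `exp (-2)`, from the Cartan decomposition `cartan129` of helper129
(byte-identical copies of `LT/H129/*.lean`, helper129@6c248c692).
-/

set_option autoImplicit false

open IsDedekindDomain NumberField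
open Fermat.Agent.LT.H556.A0 Fermat.Agent.LT.H129

noncomputable section

namespace Fermat.Agent.LT.T2.H879

variable {K : Type} [Field K] [NumberField K] {v : HeightOneSpectrum (𝓞 K)}

theorem mem_int_iff879 {x : v.adicCompletion K} :
    x ∈ v.adicCompletionIntegers K ↔ Valued.v x ≤ 1 :=
  HeightOneSpectrum.mem_adicCompletionIntegers (𝓞 K) K v

/-- In a linearly ordered commutative group with zero: `a ≤ 1`, `b ≤ 1`, `a b = 1` give `a = 1`. -/
theorem eq_one_of_mul_eq_one879 {a b : WithZero (Multiplicative ℤ)} (ha : a ≤ 1) (hb : b ≤ 1)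
    (hab : a * b = 1) : a = 1 := by
  refine le_antisymm ha ?_
  calc (1 : WithZero (Multiplicative ℤ)) = a * b := hab.symm
    _ ≤ a * 1 := mul_le_mul' le_rfl hb
    _ = a := mul_one a

/-- The determinant of an element of `GL₂(𝒪_v)` is a unit. -/
theorem val_det_maxCpt879 {k : GL (Fin 2) (v.adicCompletion K)}
    (hk : IsMaxCpt129 (v.adicCompletionIntegers K) k) :
    Valued.v (k : Matrix (Fin 2) (Fin 2) (v.adicCompletion K)).det = 1 := by
  have h1 := mem_int_iff879.mp (det_mem_of_isInt129 hk.1)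
  have h2 := mem_int_iff879.mp (det_mem_of_isInt129 hk.2)
  have h3 : (k : Matrix (Fin 2) (Fin 2) (v.adicCompletion K)).det
      * ((k⁻¹ : GL (Fin 2) (v.adicCompletion K)) :
          Matrix (Fin 2) (Fin 2) (v.adicCompletion K)).det = 1 := by
    rw [← Matrix.det_mul, ← Matrix.GeneralLinearGroup.coe_mul, mul_inv_cancel]
    simp
  have h4 := congrArg (Valued.v : v.adicCompletion K → WithZero (Multiplicative ℤ)) h3
  rw [map_mul, map_one] at h4
  exact eq_one_of_mul_eq_one879 h1 h2 h4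

theorem coe_diag129_879 {F : Type*} [Field F] (x y : F) (hx : x ≠ 0) (hy : y ≠ 0) :
    ((diag129 x y hx hy : GL (Fin 2) F) : Matrix (Fin 2) (Fin 2) F) = !![x, 0; 0, y] := rfl

theorem det_diag129_879 {F : Type*} [Field F] (x y : F) (hx : x ≠ 0) (hy : y ≠ 0) :
    ((diag129 x y hx hy : GL (Fin 2) F) : Matrix (Fin 2) (Fin 2) F).det = x * y := by
  rw [coe_diag129_879, Matrix.det_fin_two_of]
  ring

theorem diag129_mul879 {F : Type*} [Field F] (x y x' y' : F) (hx : x ≠ 0) (hy : y ≠ 0)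
    (hx' : x' ≠ 0) (hy' : y' ≠ 0) :
    diag129 x y hx hy * diag129 x' y' hx' hy'
      = diag129 (x * x') (y * y') (mul_ne_zero hx hx') (mul_ne_zero hy hy') := by
  apply ext_mat129
  rw [Matrix.GeneralLinearGroup.coe_mul, coe_diag129_879, coe_diag129_879, coe_diag129_879]
  ext i j
  fin_cases i <;> fin_cases j <;> simp [Matrix.mul_apply, Fin.sum_univ_two]

theorem diag129_inv879 {F : Type*} [Field F] (x y : F) (hx : x ≠ 0) (hy : y ≠ 0) :
    (diag129 x y hx hy)⁻¹ = diag129 x⁻¹ y⁻¹ (inv_ne_zero hx) (inv_ne_zero hy) := by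
  rw [inv_eq_iff_mul_eq_one, diag129_mul879]
  apply ext_mat129
  rw [coe_diag129_879]
  ext i j
  fin_cases i <;> fin_cases j <;> simp [hx, hy]

/-- A diagonal matrix with unit entries lies in `GL₂(𝒪_v)`. -/
theorem isMaxCpt_diag879 {x y : v.adicCompletion K} (hx : x ≠ 0) (hy : y ≠ 0)
    (vx : Valued.v x = 1) (vy : Valued.v y = 1) :
    IsMaxCpt129 (v.adicCompletionIntegers K) (diag129 x y hx hy) := by
  have key : ∀ (a b : v.adicCompletion K) (ha : a ≠ 0) (hb : b ≠ 0), Valued.v a = 1 →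
      Valued.v b = 1 → IsInt129 (v.adicCompletionIntegers K) (diag129 a b ha hb) := by
    intro a b ha hb va vb
    exact isInt129_mkGL _ (mem_int_iff879.mpr va.le) (zero_mem _) (zero_mem _)
      (mem_int_iff879.mpr vb.le)
  refine ⟨key x y hx hy vx vy, ?_⟩
  rw [diag129_inv879]
  exact key _ _ _ _ (by rw [map_inv₀, vx, inv_one]) (by rw [map_inv₀, vy, inv_one])

/-- Cartan decomposition of an integral matrix, with the valuations of the diagonal entries. -/
theorem cartan_val879 (g : GL (Fin 2) (v.adicCompletion K))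
    (hg : IsInt129 (v.adicCompletionIntegers K) g) :
    ∃ (k₁ k₂ : GL (Fin 2) (v.adicCompletion K)) (x y : v.adicCompletion K)
      (hx : x ≠ 0) (hy : y ≠ 0),
      IsMaxCpt129 (v.adicCompletionIntegers K) k₁ ∧
      IsMaxCpt129 (v.adicCompletionIntegers K) k₂ ∧
      Valued.v y ≤ Valued.v x ∧ Valued.v x ≤ 1 ∧
      Valued.v x * Valued.v y
        = Valued.v (g : Matrix (Fin 2) (Fin 2) (v.adicCompletion K)).det ∧
      g = k₁ * diag129 x y hx hy * k₂ := by
  obtain ⟨k₁, k₂, x, y, hx, hy, h1, h2, hxy, hgd⟩ := cartan129 (v.adicCompletionIntegers K) g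
  refine ⟨k₁, k₂, x, y, hx, hy, h1, h2, ?_, ?_, ?_, hgd⟩
  · have := mem_int_iff879.mp hxy
    rw [map_div₀] at this
    have hvx : Valued.v x ≠ 0 := by simpa using hx
    exact (div_le_one₀ (zero_lt_iff.mpr hvx)).mp this
  · -- `diag(x, y) = k₁⁻¹ g k₂⁻¹` is integral
    have hd : diag129 x y hx hy = k₁⁻¹ * g * k₂⁻¹ := by
      rw [hgd]; group
    have hint : IsInt129 (v.adicCompletionIntegers K) (diag129 x y hx hy) := by
      rw [hd]
      exact isInt129_mul (isInt129_mul h1.2 hg) h2.2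
    have := hint 0 0
    rw [coe_diag129_879] at this
    exact mem_int_iff879.mp (by simpa using this)
  · have hdet : (g : Matrix (Fin 2) (Fin 2) (v.adicCompletion K)).det
        = (k₁ : Matrix (Fin 2) (Fin 2) (v.adicCompletion K)).det * (x * y)
          * (k₂ : Matrix (Fin 2) (Fin 2) (v.adicCompletion K)).det := by
      conv_lhs => rw [hgd]
      rw [Matrix.GeneralLinearGroup.coe_mul, Matrix.GeneralLinearGroup.coe_mul, Matrix.det_mul,
        Matrix.det_mul, det_diag129_879]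
    rw [hdet, map_mul, map_mul, map_mul, val_det_maxCpt879 h1, val_det_maxCpt879 h2, one_mul,
      mul_one]

/-- `g` has elementary divisors of valuations `exp i ≥ exp j`. -/
def IsType879 (v : HeightOneSpectrum (𝓞 K)) (i j : ℤ) (g : GL (Fin 2) (v.adicCompletion K)) :
    Prop :=
  ∃ (k₁ k₂ : GL (Fin 2) (v.adicCompletion K)) (x y : v.adicCompletion K)
    (hx : x ≠ 0) (hy : y ≠ 0),
    IsMaxCpt129 (v.adicCompletionIntegers K) k₁ ∧
    IsMaxCpt129 (v.adicCompletionIntegers K) k₂ ∧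
    Valued.v x = WithZero.exp i ∧ Valued.v y = WithZero.exp j ∧
    g = k₁ * diag129 x y hx hy * k₂

/-- Two matrices of the same type are equivalent under `GL₂(𝒪_v)` on both sides. -/
theorem equiv_of_type879 {i j : ℤ} {g g' : GL (Fin 2) (v.adicCompletion K)}
    (hg : IsType879 v i j g) (hg' : IsType879 v i j g') :
    ∃ k₁ k₂ : GL (Fin 2) (v.adicCompletion K),
      IsMaxCpt129 (v.adicCompletionIntegers K) k₁ ∧
      IsMaxCpt129 (v.adicCompletionIntegers K) k₂ ∧ g' = k₁ * g * k₂ := by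
  obtain ⟨a₁, a₂, x, y, hx, hy, ha₁, ha₂, vx, vy, hgd⟩ := hg
  obtain ⟨b₁, b₂, x', y', hx', hy', hb₁, hb₂, vx', vy', hgd'⟩ := hg'
  have hu : IsMaxCpt129 (v.adicCompletionIntegers K)
      (diag129 (x' * x⁻¹) (y' * y⁻¹) (mul_ne_zero hx' (inv_ne_zero hx))
        (mul_ne_zero hy' (inv_ne_zero hy))) := by
    apply isMaxCpt_diag879
    · rw [map_mul, map_inv₀, vx, vx']
      exact mul_inv_cancel₀ (by simp)
    · rw [map_mul, map_inv₀, vy, vy']
      exact mul_inv_cancel₀ (by simp)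
  have hdd : diag129 x' y' hx' hy'
      = diag129 (x' * x⁻¹) (y' * y⁻¹) (mul_ne_zero hx' (inv_ne_zero hx))
          (mul_ne_zero hy' (inv_ne_zero hy)) * diag129 x y hx hy := by
    rw [diag129_mul879]
    apply ext_mat129
    rw [coe_diag129_879, coe_diag129_879]
    ext i j
    fin_cases i <;> fin_cases j <;> simp [hx, hy]
  refine ⟨b₁ * diag129 (x' * x⁻¹) (y' * y⁻¹) (mul_ne_zero hx' (inv_ne_zero hx))
      (mul_ne_zero hy' (inv_ne_zero hy)) * a₁⁻¹, a₂⁻¹ * b₂,
    isMaxCpt129_mul (isMaxCpt129_mul hb₁ hu) (isMaxCpt129_inv ha₁),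
    isMaxCpt129_mul (isMaxCpt129_inv ha₂) hb₂, ?_⟩
  rw [hgd', hdd, hgd]
  group

/-- Arithmetic in the value group: the possible valuations of the elementary divisors. -/
theorem val_split879 {a b : WithZero (Multiplicative ℤ)} {n : ℤ} (hba : b ≤ a) (ha : a ≤ 1)
    (hab : a * b = WithZero.exp n) :
    ∃ i j : ℤ, a = WithZero.exp i ∧ b = WithZero.exp j ∧ j ≤ i ∧ i ≤ 0 ∧ i + j = n := by
  have ha0 : a ≠ 0 := by
    rintro rfl
    rw [zero_mul] at hab
    exact WithZero.exp_ne_zero hab.symm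
  have hb0 : b ≠ 0 := by
    rintro rfl
    rw [mul_zero] at hab
    exact WithZero.exp_ne_zero hab.symm
  refine ⟨a.log, b.log, (WithZero.exp_log ha0).symm, (WithZero.exp_log hb0).symm, ?_, ?_, ?_⟩
  · exact (WithZero.log_le_log hb0 ha0).mpr hba
  · have := (WithZero.log_le_log ha0 one_ne_zero).mpr ha
    simpa using this
  · have := congrArg WithZero.log hab
    rw [WithZero.log_mul ha0 hb0, WithZero.log_exp] at this
    exact this

/-- An integral matrix with determinant of valuation `exp (-1)` has type `(0, -1)`. -/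
theorem type_one879 {g : GL (Fin 2) (v.adicCompletion K)}
    (hg : IsInt129 (v.adicCompletionIntegers K) g)
    (hdet : Valued.v (g : Matrix (Fin 2) (Fin 2) (v.adicCompletion K)).det
      = WithZero.exp (-1 : ℤ)) : IsType879 v 0 (-1) g := by
  obtain ⟨k₁, k₂, x, y, hx, hy, h1, h2, hyx, hx1, hprod, hgd⟩ := cartan_val879 g hg
  rw [hdet] at hprod
  obtain ⟨i, j, hi, hj, hji, hi0, hij⟩ := val_split879 hyx hx1 hprod
  have hi' : i = 0 := by omega
  have hj' : j = -1 := by omega
  subst hi' hj'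
  exact ⟨k₁, k₂, x, y, hx, hy, h1, h2, hi, hj, hgd⟩

/-- An integral matrix with determinant of valuation `exp (-2)` has type `(0, -2)` or
`(-1, -1)`. -/
theorem type_two879 {g : GL (Fin 2) (v.adicCompletion K)}
    (hg : IsInt129 (v.adicCompletionIntegers K) g)
    (hdet : Valued.v (g : Matrix (Fin 2) (Fin 2) (v.adicCompletion K)).det
      = WithZero.exp (-2 : ℤ)) : IsType879 v 0 (-2) g ∨ IsType879 v (-1) (-1) g := by
  obtain ⟨k₁, k₂, x, y, hx, hy, h1, h2, hyx, hx1, hprod, hgd⟩ := cartan_val879 g hg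
  rw [hdet] at hprod
  obtain ⟨i, j, hi, hj, hji, hi0, hij⟩ := val_split879 hyx hx1 hprod
  have hcases : (i = 0 ∧ j = -2) ∨ (i = -1 ∧ j = -1) := by omega
  rcases hcases with ⟨rfl, rfl⟩ | ⟨rfl, rfl⟩
  · exact Or.inl ⟨k₁, k₂, x, y, hx, hy, h1, h2, hi, hj, hgd⟩
  · exact Or.inr ⟨k₁, k₂, x, y, hx, hy, h1, h2, hi, hj, hgd⟩

/-- A scalar matrix is central in `GL₂`. -/
theorem scalar_central879 {F : Type*} [Field F] {ζ : GL (Fin 2) F} {c : F}
    (hζ : (ζ : Matrix (Fin 2) (Fin 2) F) = Matrix.diagonal (fun _ => c)) (g : GL (Fin 2) F) :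
    ζ * g = g * ζ := by
  apply ext_mat129
  rw [Matrix.GeneralLinearGroup.coe_mul, Matrix.GeneralLinearGroup.coe_mul, hζ]
  ext i j
  fin_cases i <;> fin_cases j <;> simp [Matrix.mul_apply, Fin.sum_univ_two, mul_comm]

/-- A matrix of type `(-1, -1)` is a scalar uniformiser times an element of `GL₂(𝒪_v)`. -/
theorem type_scalar879 {g ζ : GL (Fin 2) (v.adicCompletion K)} {c : v.adicCompletion K}
    (hc : Valued.v c = WithZero.exp (-1 : ℤ))
    (hζ : (ζ : Matrix (Fin 2) (Fin 2) (v.adicCompletion K)) = Matrix.diagonal (fun _ => c))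
    (hg : IsType879 v (-1) (-1) g) :
    ∃ k : GL (Fin 2) (v.adicCompletion K),
      IsMaxCpt129 (v.adicCompletionIntegers K) k ∧ g = k * ζ := by
  obtain ⟨k₁, k₂, x, y, hx, hy, h1, h2, vx, vy, hgd⟩ := hg
  have hc0 : c ≠ 0 := by
    intro h
    rw [h, map_zero] at hc
    exact WithZero.exp_ne_zero hc.symm
  have hu : IsMaxCpt129 (v.adicCompletionIntegers K)
      (diag129 (x * c⁻¹) (y * c⁻¹) (mul_ne_zero hx (inv_ne_zero hc0))
        (mul_ne_zero hy (inv_ne_zero hc0))) := by
    apply isMaxCpt_diag879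
    · rw [map_mul, map_inv₀, vx, hc]
      exact mul_inv_cancel₀ (by simp)
    · rw [map_mul, map_inv₀, vy, hc]
      exact mul_inv_cancel₀ (by simp)
  have hdd : diag129 x y hx hy
      = diag129 (x * c⁻¹) (y * c⁻¹) (mul_ne_zero hx (inv_ne_zero hc0))
          (mul_ne_zero hy (inv_ne_zero hc0)) * ζ := by
    apply ext_mat129
    rw [Matrix.GeneralLinearGroup.coe_mul, coe_diag129_879, coe_diag129_879, hζ]
    ext i j
    fin_cases i <;> fin_cases j <;> simp [Matrix.mul_apply, Fin.sum_univ_two, hc0]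
  refine ⟨k₁ * diag129 (x * c⁻¹) (y * c⁻¹) (mul_ne_zero hx (inv_ne_zero hc0))
      (mul_ne_zero hy (inv_ne_zero hc0)) * k₂, isMaxCpt129_mul (isMaxCpt129_mul h1 hu) h2, ?_⟩
  rw [hgd, hdd]
  simp only [mul_assoc]
  rw [scalar_central879 hζ k₂]

end Fermat.Agent.LT.T2.H879
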