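import Mathlib
import Fermat.Agent.LT.H556.A0
import Fermat.Agent.LT.T1.Spec
import Fermat.Agent.LT.T2.Spec
import Fermat.Agent.LT.T3.Spec
import Fermat.Agent.LT.T2.H941.SmoSpec
import Fermat.Agent.LT.H129.HeckeA0
import Fermat.Agent.LT.T2.H879.StripLocal

/-!
# Row LT, tower T2, sub-leaf T2.10.15 `HeckeStripC` (helper879): the function `Ψ`, OFF-MAIN

`Ψ(y) = ⟨R(y) f, f₂⟩` for `f`, `f₂` in the class `IsAut0`, right invariant under `GL₂(𝒪_v)`:
`Ψ` is bi-invariant under `GL₂(𝒪_v)` (embedded at `v`), `Ψ(y z) = b Ψ(y)` for a scalar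
uniformiser `z`, and `∑_{h ∈ H} Ψ(y h) = √q a Ψ(y)` for a Hecke coset system `H`, when `f` is a
Hecke eigenfunction at `v` with eigenvalues `(a, b)`.
-/

set_option autoImplicit false

open IsDedekindDomain NumberField MeasureTheory AutomorphicForm
open Fermat.Agent.LT.H556.A0 Fermat.Agent.LT.H129
open Fermat.Agent.LT.T2.H941

noncomputable section

namespace Fermat.Agent.LT.T2.H879

variable {K : Type} [Field K] [NumberField K]

attribute [local instance] Fermat.Agent.LT.T2.borelG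

/-! ## 1. The class `IsAut0` -/

theorem rt_mul879 (g h : G K) (f : G K → ℂ) : rt (g * h) f = rt g (rt h f) := by
  funext x
  simp only [rt, mul_assoc]

theorem rt_one879 (f : G K → ℂ) : rt (1 : G K) f = f := by
  funext x
  simp only [rt, mul_one]

theorem isAut0_rt879 {f : G K → ℂ} (hf : IsAut0 f) (y : G K) : IsAut0 (rt y f) := by
  obtain ⟨hc, ⟨C, hC⟩, hl, hz⟩ := hf
  refine ⟨?_, ⟨C, fun g => hC _⟩, ?_, ?_⟩
  · exact hc.comp (continuous_id.mul continuous_const)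
  · intro γ g
    show f (T1.ratG K γ * g * y) = f (g * y)
    rw [mul_assoc]
    exact hl γ (g * y)
  · intro z hzz g
    show f (z * g * y) = f (g * y)
    rw [mul_assoc]
    exact hz z hzz (g * y)

theorem isAut0_zero879 : IsAut0 (fun _ : G K => (0 : ℂ)) :=
  ⟨continuous_const, ⟨0, fun _ => by simp⟩, fun _ _ => rfl, fun _ _ _ => rfl⟩

theorem isAut0_add879 {f₁ f₂ : G K → ℂ} (h₁ : IsAut0 f₁) (h₂ : IsAut0 f₂) :
    IsAut0 (fun x => f₁ x + f₂ x) := by
  obtain ⟨hc₁, ⟨C₁, hC₁⟩, hl₁, hz₁⟩ := h₁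
  obtain ⟨hc₂, ⟨C₂, hC₂⟩, hl₂, hz₂⟩ := h₂
  refine ⟨hc₁.add hc₂, ⟨C₁ + C₂, fun g => ?_⟩, ?_, ?_⟩
  · exact (norm_add_le _ _).trans (add_le_add (hC₁ g) (hC₂ g))
  · intro γ g
    show f₁ (T1.ratG K γ * g) + f₂ (T1.ratG K γ * g) = f₁ g + f₂ g
    rw [hl₁, hl₂]
  · intro z hzz g
    show f₁ (z * g) + f₂ (z * g) = f₁ g + f₂ g
    rw [hz₁ z hzz, hz₂ z hzz]

theorem isAut0_sum879 (H : Finset (G K)) (φ : G K → G K → ℂ) (hφ : ∀ h ∈ H, IsAut0 (φ h)) :
    IsAut0 (fun x => ∑ h ∈ H, φ h x) := by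
  classical
  induction H using Finset.induction_on with
  | empty => simpa using isAut0_zero879 (K := K)
  | insert a s ha ih =>
    have h1 : IsAut0 (φ a) := hφ a (Finset.mem_insert_self a s)
    have h2 : IsAut0 (fun x => ∑ h ∈ s, φ h x) :=
      ih (fun h hh => hφ h (Finset.mem_insert_of_mem hh))
    have := isAut0_add879 h1 h2
    simpa [Finset.sum_insert ha] using this

/-! ## 2. Linearity of the pairing in the first variable -/

theorem pair_zero879 (F : T2.Frame K) (g : G K → ℂ) :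
    T2.pair F (fun _ => (0 : ℂ)) g = 0 := by
  simp [T2.pair]

theorem pair_const_mul879 (F : T2.Frame K) (c : ℂ) (φ g : G K → ℂ) :
    T2.pair F (fun x => c * φ x) g = c * T2.pair F φ g := by
  unfold T2.pair
  rw [← MeasureTheory.integral_const_mul]
  congr 1
  funext x
  ring

theorem pair_sum879 (hP : PairC K) (F : T2.Frame K) (H : Finset (G K)) (φ : G K → G K → ℂ)
    (hφ : ∀ h ∈ H, IsAut0 (φ h)) (g : G K → ℂ) (hg : IsAut0 g) :
    T2.pair F (fun x => ∑ h ∈ H, φ h x) g = ∑ h ∈ H, T2.pair F (φ h) g := by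
  classical
  induction H using Finset.induction_on with
  | empty => simpa using pair_zero879 F g
  | insert a s ha ih =>
    have h1 : IsAut0 (φ a) := hφ a (Finset.mem_insert_self a s)
    have h2 : IsAut0 (fun x => ∑ h ∈ s, φ h x) :=
      isAut0_sum879 s φ (fun h hh => hφ h (Finset.mem_insert_of_mem hh))
    have hadd := (hP F).1 (φ a) (fun x => ∑ h ∈ s, φ h x) g h1 h2 hg
    rw [Finset.sum_insert ha, ← ih (fun h hh => hφ h (Finset.mem_insert_of_mem hh)), ← hadd]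
    congr 1
    funext x
    rw [Finset.sum_insert ha]

/-! ## 3. The function `Ψ` -/

/-- `Ψ(y) = ⟨R(y) f, f₂⟩`. -/
def psi879 (F : T2.Frame K) (f f₂ : G K → ℂ) (y : G K) : ℂ := T2.pair F (rt y f) f₂

theorem psi_one879 (F : T2.Frame K) (f f₂ : G K → ℂ) :
    psi879 F f f₂ 1 = T2.pair F f f₂ := by
  unfold psi879
  rw [rt_one879]

/-- `⟨R(p) f, R(p') f₂⟩ = Ψ(p'⁻¹ p)`. -/
theorem pair_rt_rt879 (hP : PairC K) (F : T2.Frame K) {f f₂ : G K → ℂ} (hf : IsAut0 f)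
    (hf₂ : IsAut0 f₂) (p p' : G K) :
    T2.pair F (rt p f) (rt p' f₂) = psi879 F f f₂ (p'⁻¹ * p) := by
  have h := (hP F).2.2 p'⁻¹ (rt p f) (rt p' f₂) (isAut0_rt879 hf p) (isAut0_rt879 hf₂ p')
  rw [← rt_mul879, ← rt_mul879, inv_mul_cancel, rt_one879] at h
  exact h.symm

/-- Right invariance of `Ψ` under `GL₂(𝒪_v)`. -/
theorem psi_mul_right879 (F : T2.Frame K) {v : HeightOneSpectrum (𝓞 K)} {f : G K → ℂ}
    (f₂ : G K → ℂ) (hK : IsKv v f) {k : G K} (hk : IsLocalMaxCptAt129 v k) (y : G K) :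
    psi879 F f f₂ (y * k) = psi879 F f f₂ y := by
  unfold psi879
  congr 1
  funext x
  show f (x * (y * k)) = f (x * y)
  rw [← mul_assoc]
  exact hK k hk.1 hk.2.1 hk.2.2 (x * y)

/-- Left invariance of `Ψ` under `GL₂(𝒪_v)`. -/
theorem psi_mul_left879 (hP : PairC K) (F : T2.Frame K) {v : HeightOneSpectrum (𝓞 K)}
    {f f₂ : G K → ℂ} (hf : IsAut0 f) (hf₂ : IsAut0 f₂) (hK₂ : IsKv v f₂) {k : G K}
    (hk : IsLocalMaxCptAt129 v k) (y : G K) :
    psi879 F f f₂ (k * y) = psi879 F f f₂ y := by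
  have hk' : rt k⁻¹ f₂ = f₂ := by
    funext x
    show f₂ (x * k⁻¹) = f₂ x
    exact hK₂ k⁻¹ (isLocalAtFin_inv129 hk.1) hk.2.2 (by rw [inv_inv]; exact hk.2.1) x
  have h := (hP F).2.2 k (rt y f) (rt k⁻¹ f₂) (isAut0_rt879 hf y) (isAut0_rt879 hf₂ k⁻¹)
  rw [← rt_mul879, ← rt_mul879, mul_inv_cancel, rt_one879] at h
  unfold psi879
  rw [h, hk']

/-- `Ψ(y z) = b Ψ(y)` for a scalar uniformiser `z`. -/
theorem psi_mul_scalar879 (F : T2.Frame K) {v : HeightOneSpectrum (𝓞 K)} {f : G K → ℂ}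
    (f₂ : G K → ℂ) {a b : ℂ} (hE : IsHeckeEigenAt f v a b) {z : G K}
    (hz : IsScalarUniformizerAt v z) (y : G K) :
    psi879 F f f₂ (y * z) = b * psi879 F f f₂ y := by
  unfold psi879
  rw [← pair_const_mul879]
  congr 1
  funext x
  show f (x * (y * z)) = b * f (x * y)
  rw [← mul_assoc]
  exact hE.2 z hz (x * y)

/-- `∑_{h ∈ H} Ψ(y h) = √q a Ψ(y)`. -/
theorem psi_hecke879 (hP : PairC K) (F : T2.Frame K) {v : HeightOneSpectrum (𝓞 K)}
    {f f₂ : G K → ℂ} (hf : IsAut0 f) (hf₂ : IsAut0 f₂) {a b : ℂ}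
    (hE : IsHeckeEigenAt f v a b) {H : Finset (G K)} (hH : IsHeckeCosetSystem v H) (y : G K) :
    ∑ h ∈ H, psi879 F f f₂ (y * h)
      = ((Real.sqrt (Ideal.absNorm v.asIdeal : ℝ) : ℝ) : ℂ) * a * psi879 F f f₂ y := by
  unfold psi879
  rw [← pair_const_mul879, ← pair_sum879 hP F H (fun h => rt (y * h) f)
    (fun h _ => isAut0_rt879 hf (y * h)) f₂ hf₂]
  congr 1
  funext x
  show ∑ h ∈ H, f (x * (y * h)) = _ * f (x * y)
  rw [← hE.1 H hH (x * y)]
  refine Finset.sum_congr rfl fun h _ => ?_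
  rw [mul_assoc]

end Fermat.Agent.LT.T2.H879
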