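import Mathlib
import Fermat.Agent.LT.H556.A0
import Fermat.Agent.LT.T1.Spec
import Fermat.Agent.LT.T2.Spec
import Fermat.Agent.LT.T3.Spec
import Fermat.Agent.LT.T2.H941.SmoSpec
import Fermat.Agent.LT.H129.HeckeA0
import Fermat.Agent.LT.H129.HeckeExists
import Fermat.Agent.LT.T2.H879.StripLocal
import Fermat.Agent.LT.T2.H879.StripGlobal

/-!
# Row LT, tower T2, sub-leaf T2.10.15 `HeckeStripC` (helper879), OFF-MAIN

`leaf15_879 : H941.Leaf15 K` (`T1.T1Out K → PairC K → HeckeStripC K`), VERBATIM Prop of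
`LT/T2/H941/SmoSpec.lean` (helper941@8afa9067a, sha256 41255efa).

Proof.  `⟨R(p) f, R(p') f₂⟩ = Ψ(n(u - u'))`, `Ψ(y) = ⟨R(y) f, f₂⟩`.  If `⟨f, f₂⟩ ≠ 0` there is
nothing to prove.  If `⟨f, f₂⟩ = Ψ(1) = 0`: `Ψ` is bi-`GL₂(𝒪_v)`-invariant, so it is constant
on the integral matrices of determinant a uniformiser (value `T`), and `(q + 1) T = √q a Ψ(1) = 0`.
For `g₀` in this set the products `g₀ h`, `h ∈ H`, are integral of determinant valuation
`exp (-2)`: either `g₀ h ∈ GL₂(𝒪_v) z` (then `Ψ = b Ψ(1) = 0`) or `g₀ h` has elementary divisors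
`(1, ϖ²)`, as `n(c) z` for `c ∈ ϖ⁻¹ 𝒪_v^×`; the second case occurs (`H` has two inequivalent
elements), and `∑_h Ψ(g₀ h) = √q a T = 0`, so `b Ψ(n(c)) = Ψ(n(c) z) = 0`.  If `b = 0` then
`f = 0`.
-/

set_option autoImplicit false

open IsDedekindDomain NumberField MeasureTheory AutomorphicForm
open Fermat.Agent.LT.H556.A0 Fermat.Agent.LT.H129
open Fermat.Agent.LT.T2.H941

noncomputable section

namespace Fermat.Agent.LT.T2.H879

variable {K : Type} [Field K] [NumberField K]

attribute [local instance] Fermat.Agent.LT.T2.borelG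

/-! ## 1. Dictionary local / global -/

theorem isLocalMaxCpt_locFin879 {v : HeightOneSpectrum (𝓞 K)}
    {k : GL (Fin 2) (v.adicCompletion K)} (hk : IsMaxCpt129 (v.adicCompletionIntegers K) k) :
    IsLocalMaxCptAt129 v (locFin129 v k) := by
  refine ⟨isLocalAtFin_locFin129 v k, ?_, ?_⟩
  · intro i j
    rw [finComp_locFin129]
    exact hk.1 i j
  · intro i j
    rw [← map_inv, finComp_locFin129]
    exact hk.2 i j

theorem one_lt_val879 {y : WithZero (Multiplicative ℤ)} (hy : 1 < y) :
    WithZero.exp (1 : ℤ) ≤ y := by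
  have hy0 : y ≠ 0 := (zero_lt_one.trans hy).ne'
  rw [← WithZero.exp_log hy0] at hy ⊢
  rw [← WithZero.exp_zero, WithZero.exp_lt_exp] at hy
  rw [WithZero.exp_le_exp]
  omega

/-- The matrix of `n(c) ζ`. -/
theorem coe_upper_mul_scalar879 {F : Type*} [Field F] {ζ : GL (Fin 2) F} {c₀ : F}
    (hζ : (ζ : Matrix (Fin 2) (Fin 2) F) = Matrix.diagonal (fun _ => c₀)) (c : F) :
    ((upperU129 c * ζ : GL (Fin 2) F) : Matrix (Fin 2) (Fin 2) F) = !![c₀, c * c₀; 0, c₀] := by
  rw [Matrix.GeneralLinearGroup.coe_mul, hζ]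
  simp only [upperU129, coe_mkGL129]
  ext i j
  fin_cases i <;> fin_cases j <;> simp [Matrix.mul_apply, Fin.sum_univ_two]

/-- `n(c) ζ` has elementary divisors `(1, ϖ²)` when `c ∈ ϖ⁻¹ 𝒪_v^×`. -/
theorem type_upper_scalar879 {v : HeightOneSpectrum (𝓞 K)}
    {ζ : GL (Fin 2) (v.adicCompletion K)} {c₀ c : v.adicCompletion K}
    (hc₀ : Valued.v c₀ = WithZero.exp (-1 : ℤ))
    (hζ : (ζ : Matrix (Fin 2) (Fin 2) (v.adicCompletion K)) = Matrix.diagonal (fun _ => c₀))
    (hc : Valued.v c = WithZero.exp (1 : ℤ)) : IsType879 v 0 (-2) (upperU129 c * ζ) := by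
  have hint : IsInt129 (v.adicCompletionIntegers K) (upperU129 c * ζ) := by
    intro i j
    rw [coe_upper_mul_scalar879 hζ]
    have h1 : c₀ ∈ v.adicCompletionIntegers K := by
      rw [mem_int_iff879, hc₀, ← WithZero.exp_zero, WithZero.exp_le_exp]
      norm_num
    have h2 : c * c₀ ∈ v.adicCompletionIntegers K := by
      rw [mem_int_iff879, map_mul, hc, hc₀, ← WithZero.exp_add, ← WithZero.exp_zero,
        WithZero.exp_le_exp]
      norm_num
    fin_cases i <;> fin_cases j
    · simpa using h1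
    · simpa using h2
    · simp
    · simpa using h1
  have hdet : Valued.v ((upperU129 c * ζ : GL (Fin 2) (v.adicCompletion K)) :
      Matrix (Fin 2) (Fin 2) (v.adicCompletion K)).det = WithZero.exp (-2 : ℤ) := by
    rw [coe_upper_mul_scalar879 hζ, Matrix.det_fin_two_of]
    simp only [mul_zero, sub_zero]
    rw [map_mul, hc₀, ← WithZero.exp_add]
    norm_num
  rcases type_two879 hint hdet with h | h
  · exact h
  · exfalso
    obtain ⟨k, hk, hkk⟩ := type_scalar879 hc₀ hζ h
    have hku : upperU129 c = k := mul_right_cancel hkk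
    have hmem := hk.1 0 1
    rw [← hku] at hmem
    simp only [upperU129, coe_mkGL129] at hmem
    have hle : Valued.v c ≤ 1 := mem_int_iff879.mp (by simpa using hmem)
    rw [hc, ← WithZero.exp_zero, WithZero.exp_le_exp] at hle
    omega

/-! ## 2. The vanishing -/

/-- If `⟨f, f₂⟩ = 0` then `⟨R(n(c)) f, f₂⟩ = 0` for `c ∈ ϖ⁻¹ 𝒪_v`. -/
theorem strip_zero879 (hP : PairC K) (F : T2.Frame K) {v : HeightOneSpectrum (𝓞 K)}
    {f f₂ : G K → ℂ} {a b : ℂ} (hf : IsAut0 f) (hf₂ : IsAut0 f₂) (hK : IsKv v f)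
    (hK₂ : IsKv v f₂) (hE : IsHeckeEigenAt f v a b) (hB : T2.pair F f f₂ = 0)
    {c : v.adicCompletion K} (hc : Valued.v c ≤ WithZero.exp (1 : ℤ)) :
    psi879 F f f₂ (locFin129 v (upperU129 c)) = 0 := by
  classical
  by_cases hci : Valued.v c ≤ 1
  · have hk := isLocalMaxCpt_locFin879 (isMaxCpt129_upperU (mem_int_iff879.mpr hci))
    have := psi_mul_right879 F f₂ hK hk 1
    rw [one_mul] at this
    rw [this, psi_one879, hB]
  · have hvc : Valued.v c = WithZero.exp (1 : ℤ) :=
      le_antisymm hc (one_lt_val879 (not_le.mp hci))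
    obtain ⟨H, hH⟩ := exists_heckeCosetSystem129 v
    obtain ⟨z, hz⟩ := exists_scalarUniformizer129 v
    obtain ⟨hzloc, c₀, hc₀, hzc⟩ := id hz
    have hζ : ((finCompHom129 v z : GL (Fin 2) (v.adicCompletion K)) :
        Matrix (Fin 2) (Fin 2) (v.adicCompletion K)) = Matrix.diagonal (fun _ => c₀) := hzc
    have hzeq : z = locFin129 v (finCompHom129 v z) := eq_locFin129_of_isLocalAtFin hzloc
    -- the local function
    have hΨK : ∀ (k₁ k₂ x : GL (Fin 2) (v.adicCompletion K)),
        IsMaxCpt129 (v.adicCompletionIntegers K) k₁ →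
        IsMaxCpt129 (v.adicCompletionIntegers K) k₂ →
        psi879 F f f₂ (locFin129 v (k₁ * x * k₂)) = psi879 F f f₂ (locFin129 v x) := by
      intro k₁ k₂ x h1 h2
      rw [map_mul, map_mul, psi_mul_right879 F f₂ hK (isLocalMaxCpt_locFin879 h2),
        psi_mul_left879 hP F hf hf₂ hK₂ (isLocalMaxCpt_locFin879 h1)]
    have hΨζ : ∀ x : GL (Fin 2) (v.adicCompletion K),
        psi879 F f f₂ (locFin129 v (x * finCompHom129 v z))
          = b * psi879 F f f₂ (locFin129 v x) := by
      intro x
      rw [map_mul, ← hzeq]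
      exact psi_mul_scalar879 F f₂ hE hz _
    have hΨH : ∀ x : GL (Fin 2) (v.adicCompletion K),
        ∑ h ∈ H, psi879 F f f₂ (locFin129 v (x * finCompHom129 v h))
          = ((Real.sqrt (Ideal.absNorm v.asIdeal : ℝ) : ℝ) : ℂ) * a
            * psi879 F f f₂ (locFin129 v x) := by
      intro x
      rw [← psi_hecke879 hP F hf hf₂ hE hH (locFin129 v x)]
      refine Finset.sum_congr rfl fun h hh => ?_
      rw [map_mul, ← eq_locFin129_of_isLocalAtFin (hH.2.1 h hh).1]
    have hΨ1 : psi879 F f f₂ (locFin129 v 1) = 0 := by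
      rw [map_one, psi_one879, hB]
    -- the elements of `H` are integral of determinant a uniformiser
    have hHint : ∀ h ∈ H, IsInt129 (v.adicCompletionIntegers K) (finCompHom129 v h) :=
      fun h hh => (hH.2.1 h hh).2.1
    have hHdet : ∀ h ∈ H, Valued.v ((finCompHom129 v h : GL (Fin 2) (v.adicCompletion K)) :
        Matrix (Fin 2) (Fin 2) (v.adicCompletion K)).det = WithZero.exp (-1 : ℤ) :=
      fun h hh => (hH.2.1 h hh).2.2
    have hcard : (H.card : ℂ) ≠ 0 := by
      rw [hH.1]
      exact_mod_cast Nat.succ_ne_zero (Ideal.absNorm v.asIdeal)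
    -- step 1: `Ψ` vanishes on the integral matrices of determinant a uniformiser
    have hT1 : ∀ g : GL (Fin 2) (v.adicCompletion K),
        IsInt129 (v.adicCompletionIntegers K) g →
        Valued.v (g : Matrix (Fin 2) (Fin 2) (v.adicCompletion K)).det = WithZero.exp (-1 : ℤ) →
        psi879 F f f₂ (locFin129 v g) = 0 := by
      intro g hg hdet
      have hall : ∀ h ∈ H, psi879 F f f₂ (locFin129 v (1 * finCompHom129 v h))
          = psi879 F f f₂ (locFin129 v g) := by
        intro h hh
        obtain ⟨k₁, k₂, h1, h2, heq⟩ :=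
          equiv_of_type879 (type_one879 hg hdet) (type_one879 (hHint h hh) (hHdet h hh))
        rw [one_mul, heq]
        exact hΨK k₁ k₂ g h1 h2
      have hsum := hΨH 1
      rw [Finset.sum_congr rfl hall, Finset.sum_const, hΨ1, mul_zero, nsmul_eq_mul] at hsum
      exact (mul_eq_zero.mp hsum).resolve_left hcard
    -- step 2: a base point and the products `g₀ h`
    have hne : H.Nonempty := by
      rw [← Finset.card_pos, hH.1]
      exact Nat.succ_pos _
    obtain ⟨h₀, hh₀⟩ := hne
    set g₀ := finCompHom129 v h₀ with hg₀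
    set t := upperU129 c * finCompHom129 v z with ht
    have htype : IsType879 v 0 (-2) t := type_upper_scalar879 hc₀ hζ hvc
    have hprodint : ∀ h ∈ H, IsInt129 (v.adicCompletionIntegers K) (g₀ * finCompHom129 v h) :=
      fun h hh => isInt129_mul (hHint h₀ hh₀) (hHint h hh)
    have hproddet : ∀ h ∈ H, Valued.v ((g₀ * finCompHom129 v h :
        GL (Fin 2) (v.adicCompletion K)) : Matrix (Fin 2) (Fin 2) (v.adicCompletion K)).det
          = WithZero.exp (-2 : ℤ) := by
      intro h hh
      rw [Matrix.GeneralLinearGroup.coe_mul, Matrix.det_mul, map_mul, hHdet h₀ hh₀, hHdet h hh,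
        ← WithZero.exp_add]
      norm_num
    have hterm : ∀ h ∈ H, psi879 F f f₂ (locFin129 v (g₀ * finCompHom129 v h)) = 0 ∨
        psi879 F f f₂ (locFin129 v (g₀ * finCompHom129 v h))
          = psi879 F f f₂ (locFin129 v t) := by
      intro h hh
      rcases type_two879 (hprodint h hh) (hproddet h hh) with h2 | h2
      · right
        obtain ⟨k₁, k₂, h1, h2', heq⟩ := equiv_of_type879 htype h2
        rw [heq]
        exact hΨK k₁ k₂ t h1 h2'
      · left
        obtain ⟨k, hk, hkk⟩ := type_scalar879 hc₀ hζ h2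
        rw [hkk, hΨζ k]
        have := hΨK k 1 1 hk (isMaxCpt129_one _)
        rw [mul_one, mul_one] at this
        rw [this, hΨ1, mul_zero]
    -- the second case occurs
    have hex : ∃ h₁ ∈ H, psi879 F f f₂ (locFin129 v (g₀ * finCompHom129 v h₁))
        = psi879 F f f₂ (locFin129 v t) := by
      have hcard2 : 1 < H.card := by
        rw [hH.1]
        have : Ideal.absNorm v.asIdeal ≠ 0 := by
          rw [Ne, Ideal.absNorm_eq_zero_iff]
          exact v.ne_bot
        omega
      obtain ⟨x, hx, y, hy, hxy⟩ := Finset.one_lt_card.mp hcard2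
      by_contra hcon
      simp only [not_exists, not_and] at hcon
      have hscal : ∀ h ∈ H, ∃ k : GL (Fin 2) (v.adicCompletion K),
          IsMaxCpt129 (v.adicCompletionIntegers K) k ∧
          g₀ * finCompHom129 v h = k * finCompHom129 v z := by
        intro h hh
        rcases type_two879 (hprodint h hh) (hproddet h hh) with h2 | h2
        · exfalso
          obtain ⟨k₁, k₂, h1, h2', heq⟩ := equiv_of_type879 htype h2
          apply hcon h hh
          rw [heq]
          exact hΨK k₁ k₂ t h1 h2'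
        · exact type_scalar879 hc₀ hζ h2
      obtain ⟨kx, hkx, ex⟩ := hscal x hx
      obtain ⟨ky, hky, ey⟩ := hscal y hy
      -- `x⁻¹ y` is integral
      have hxy' : (finCompHom129 v x)⁻¹ * finCompHom129 v y = kx⁻¹ * ky := by
        have e1 : finCompHom129 v x = g₀⁻¹ * (kx * finCompHom129 v z) := by
          rw [← ex]; group
        have e2 : finCompHom129 v y = g₀⁻¹ * (ky * finCompHom129 v z) := by
          rw [← ey]; group
        have hcen := scalar_central879 hζ
        rw [e1, e2]
        have : (g₀⁻¹ * (kx * finCompHom129 v z))⁻¹ * (g₀⁻¹ * (ky * finCompHom129 v z))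
            = (finCompHom129 v z)⁻¹ * (kx⁻¹ * ky) * finCompHom129 v z := by group
        rw [this, mul_assoc, ← hcen (kx⁻¹ * ky), ← mul_assoc, inv_mul_cancel, one_mul]
      have hint : IsIntegralAt v (x⁻¹ * y) := by
        have h1 : IsInt129 (v.adicCompletionIntegers K) (finCompHom129 v (x⁻¹ * y)) := by
          rw [map_mul, map_inv, hxy']
          exact (isMaxCpt129_mul (isMaxCpt129_inv hkx) hky).1
        exact h1
      exact hH.2.2 x hx y hy hxy hint
    obtain ⟨h₁, hh₁, hval⟩ := hex
    -- step 3: the sum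
    have hsum := hΨH g₀
    rw [hT1 g₀ (hHint h₀ hh₀) (hHdet h₀ hh₀), mul_zero] at hsum
    have hVt : psi879 F f f₂ (locFin129 v t) = 0 := by
      by_contra hV
      have hrew : ∀ h ∈ H, psi879 F f f₂ (locFin129 v (g₀ * finCompHom129 v h))
          = if psi879 F f f₂ (locFin129 v (g₀ * finCompHom129 v h)) = 0 then 0
            else psi879 F f f₂ (locFin129 v t) := by
        intro h hh
        rcases hterm h hh with h0 | h1
        · rw [if_pos h0]; exact h0
        · rw [if_neg (by rw [h1]; exact hV)]; exact h1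
      rw [Finset.sum_congr rfl hrew, Finset.sum_ite, Finset.sum_const_zero, zero_add,
        Finset.sum_const, nsmul_eq_mul] at hsum
      rcases mul_eq_zero.mp hsum with h0 | h0
      · have hmem : h₁ ∈ H.filter (fun h =>
            ¬ psi879 F f f₂ (locFin129 v (g₀ * finCompHom129 v h)) = 0) := by
          rw [Finset.mem_filter]
          exact ⟨hh₁, by rw [hval]; exact hV⟩
        have hpos : 0 < (H.filter (fun h =>
            ¬ psi879 F f f₂ (locFin129 v (g₀ * finCompHom129 v h)) = 0)).card :=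
          Finset.card_pos.mpr ⟨h₁, hmem⟩
        have : ((H.filter (fun h =>
            ¬ psi879 F f f₂ (locFin129 v (g₀ * finCompHom129 v h)) = 0)).card : ℂ) ≠ 0 := by
          exact_mod_cast hpos.ne'
        exact this h0
      · exact hV h0
    -- step 4: `b Ψ(n(c)) = 0`
    have hb : b * psi879 F f f₂ (locFin129 v (upperU129 c)) = 0 := by
      rw [← hΨζ (upperU129 c)]
      exact hVt
    rcases mul_eq_zero.mp hb with hb0 | h0
    · -- `b = 0`, so `f = 0`
      have hf0 : ∀ g : G K, f g = 0 := by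
        intro g
        have := hE.2 z hz (g * z⁻¹)
        rw [inv_mul_cancel_right, hb0, zero_mul] at this
        exact this
      unfold psi879
      have : rt (locFin129 v (upperU129 c)) f = fun _ => (0 : ℂ) := by
        funext x
        exact hf0 _
      rw [this, pair_zero879]
    · exact h0

/-! ## 3. The sub-leaf -/

/-- The component at `v` of a unipotent element. -/
theorem finCompHom_unip879 {v : HeightOneSpectrum (𝓞 K)} {p : G K} {u : v.adicCompletion K}
    (hp : IsUnipAt v p u) : finCompHom129 v p = upperU129 u := by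
  apply ext_mat129
  rw [coe_finCompHom129, hp.2]
  rfl

theorem upperU_inv_mul879 {F : Type*} [Field F] (u u' : F) :
    (upperU129 u')⁻¹ * upperU129 u = upperU129 (u - u') := by
  rw [upperU129_inv]
  apply ext_mat129
  rw [Matrix.GeneralLinearGroup.coe_mul]
  simp only [upperU129, coe_mkGL129]
  ext i j
  fin_cases i <;> fin_cases j <;> simp [Matrix.mul_apply, Fin.sum_univ_two]
  ring

/-- **T2.10.15** `HeckeStripC` from `PairC`. -/
theorem heckeStripC_of_pairC879 (hP : PairC K) : HeckeStripC K := by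
  intro F v f f₂ a b hf hf₂ hK hK₂ hE p p' u u' hp hp' hu hu'
  by_cases hB : T2.pair F f f₂ = 0
  · refine ⟨0, ?_⟩
    rw [zero_mul, pair_rt_rt879 hP F hf hf₂ p p']
    have hloc : IsLocalAtFin v (p'⁻¹ * p) := isLocalAtFin_mul129 (isLocalAtFin_inv129 hp'.1) hp.1
    have heq : p'⁻¹ * p = locFin129 v (upperU129 (u - u')) := by
      rw [eq_locFin129_of_isLocalAtFin hloc, map_mul, map_inv, finCompHom_unip879 hp,
        finCompHom_unip879 hp', upperU_inv_mul879]
    rw [heq]
    refine strip_zero879 hP F hf hf₂ hK hK₂ hE hB ?_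
    calc Valued.v (u - u') ≤ max (Valued.v u) (Valued.v u') := Valuation.map_sub _ _ _
      _ ≤ WithZero.exp (1 : ℤ) := max_le hu hu'
  · exact ⟨T2.pair F (rt p f) (rt p' f₂) / T2.pair F f f₂, by
      rw [div_mul_cancel₀ _ hB]⟩

/-- **THE LEAF T2.10.15**, verbatim. -/
theorem leaf15_879 : Leaf15 K := fun _ hP => heckeStripC_of_pairC879 hP

end Fermat.Agent.LT.T2.H879
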